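/-
S41 / PAIR, sub-leaf (S1) (helper80): NORMAL FORMS of parabolic homomorphisms in the coset model
of the landed `Fermat.Agent.S16.H97` files (`Cos Γ`, `IsCoc`, `cocOf`, `homOfCoc`, `U = S * T`).

* `exists_eq_comp_sub_of_period` (PERIOD): a function on a finite set whose sums over all closed
  orbits of a permutation `σ` vanish is of the form `n ∘ σ - n`;
* `exists_T_normal`: a parabolic homomorphism `φ : Γ → A` is `homOfCoc c` for a cocycle `c` with
  `c T = 0` (then `c U = c S ∘ T` and `c S + c S ∘ S = 0`);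
* `exists_U_potential`: a homomorphism `ψ : Γ → A` to a torsion-free group is `homOfCoc c` for a
  cocycle `c` with `c U = 0` and `c S = Q ∘ S - Q` for a function `Q` on the cosets.

`Γ` is an arbitrary subgroup of finite index of `SL(2, ℤ)` (containing `-1` where stated).
-/
import Fermat.Agent.S16.H97.Lift
import Fermat.Prelude.Def_ModularCurve_PeriodMap

set_option autoImplicit false

open scoped MatrixGroups
open ModularGroup

noncomputable section

namespace Fermat.Agent.S41.H80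

open Fermat.Agent.S16.H97

/-! ### PERIOD -/

section Period

variable {X : Type*} {A : Type*} [AddCommGroup A]

/-- Partial sums of `f` along the `σ`-orbit of `r`. -/
def orbSum (σ : Equiv.Perm X) (f : X → A) (r : X) (k : ℕ) : A :=
  ∑ j ∈ Finset.range k, f ((σ ^ j) r)

theorem orbSum_add (σ : Equiv.Perm X) (f : X → A) (r : X) (a w : ℕ) :
    orbSum σ f r (a + w) = orbSum σ f r a + orbSum σ f ((σ ^ a) r) w := by
  unfold orbSum
  rw [Finset.sum_range_add]
  congr 1
  refine Finset.sum_congr rfl fun j _ => ?_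
  rw [add_comm, pow_add, Equiv.Perm.mul_apply]

theorem orbSum_eq_of_pow_eq (σ : Equiv.Perm X) (f : X → A)
    (h : ∀ (x : X) (w : ℕ), (σ ^ w) x = x → ∑ j ∈ Finset.range w, f ((σ ^ j) x) = 0)
    (r : X) {a b : ℕ} (hab : (σ ^ a) r = (σ ^ b) r) : orbSum σ f r a = orbSum σ f r b := by
  wlog hle : a ≤ b generalizing a b
  · exact (this hab.symm (le_of_not_ge hle)).symm
  obtain ⟨w, rfl⟩ := Nat.exists_eq_add_of_le hle
  rw [orbSum_add]
  have hw : (σ ^ w) ((σ ^ a) r) = (σ ^ a) r := by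
    rw [← Equiv.Perm.mul_apply, ← pow_add, add_comm]; exact hab.symm
  have h0 : orbSum σ f ((σ ^ a) r) w = 0 := h ((σ ^ a) r) w hw
  rw [h0, add_zero]

/-- **PERIOD.**  A function on a finite set whose sums over all closed orbits of a permutation
`σ` vanish is of the form `n ∘ σ - n`. -/
theorem exists_eq_comp_sub_of_period [Finite X] (σ : Equiv.Perm X) (f : X → A)
    (h : ∀ (x : X) (w : ℕ), (σ ^ w) x = x → ∑ j ∈ Finset.range w, f ((σ ^ j) x) = 0) :
    ∃ n : X → A, ∀ x, f x = n (σ x) - n x := by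
  classical
  let s : Setoid X := Equiv.Perm.SameCycle.setoid σ
  let r : X → X := fun x => (Quotient.mk s x).out
  have hr : ∀ x, σ.SameCycle (r x) x := fun x =>
    Quotient.exact (Quotient.out_eq (Quotient.mk s x))
  have hrσ : ∀ x, r (σ x) = r x := by
    intro x
    have hq : Quotient.mk s (σ x) = Quotient.mk s x := Quotient.sound (by
      change σ.SameCycle (σ x) x
      exact Equiv.Perm.sameCycle_apply_left.2 (Equiv.Perm.SameCycle.refl σ x))
    simp only [r, hq]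
  have hk : ∀ x, ∃ k : ℕ, (σ ^ k) (r x) = x := fun x => (hr x).exists_nat_pow_eq
  choose k hk using hk
  refine ⟨fun x => orbSum σ f (r x) (k x), fun x => ?_⟩
  have h1 : (σ ^ (k (σ x))) (r x) = (σ ^ (k x + 1)) (r x) := by
    rw [← hrσ x, hk (σ x), pow_succ', Equiv.Perm.mul_apply, hrσ x, hk x]
  have h2 := orbSum_eq_of_pow_eq σ f h (r x) h1
  change f x = orbSum σ f (r (σ x)) (k (σ x)) - orbSum σ f (r x) (k x)
  rw [hrσ x, h2, orbSum_add]
  simp [orbSum, hk x]

end Period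

/-! ### Coset form -/

section Coset

variable {Γ : Subgroup SL(2, ℤ)} {A : Type*} [AddCommGroup A]

theorem toPerm_pow_apply (g : SL(2, ℤ)) (j : ℕ) (x : Cos Γ) :
    ((MulAction.toPerm g : Equiv.Perm (Cos Γ)) ^ j) x = g ^ j • x := by
  have h : (MulAction.toPerm g : Equiv.Perm (Cos Γ)) ^ j = MulAction.toPerm (g ^ j) :=
    (map_pow (MulAction.toPermHom SL(2, ℤ) (Cos Γ)) g j).symm
  rw [h]
  rfl

/-- PERIOD on the coset space: a function whose sums over the closed `g`-orbits vanish is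
`n (g • x) - n x`. -/
theorem exists_potential [Finite (Cos Γ)] (g : SL(2, ℤ)) (f : Cos Γ → A)
    (h : ∀ (x : Cos Γ) (w : ℕ), g ^ w • x = x → ∑ j ∈ Finset.range w, f (g ^ j • x) = 0) :
    ∃ n : Cos Γ → A, ∀ x, f x = n (g • x) - n x := by
  obtain ⟨n, hn⟩ := exists_eq_comp_sub_of_period (MulAction.toPerm g) f (fun x w hw => by
    simp only [toPerm_pow_apply] at hw ⊢
    exact h x w hw)
  exact ⟨n, fun x => hn x⟩

/-- The coboundary of a function on the cosets. -/
def cob (n : Cos Γ → A) (g : SL(2, ℤ)) (x : Cos Γ) : A := n (g • x) - n x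

theorem cob_isCoc (n : Cos Γ → A) : IsCoc Γ (cob n) := by
  intro g h x
  simp only [cob, mul_smul]
  abel

theorem isCoc_sub {c c' : SL(2, ℤ) → Cos Γ → A} (hc : IsCoc Γ c) (hc' : IsCoc Γ c') :
    IsCoc Γ (fun g x => c g x - c' g x) := by
  intro g h x
  change c (g * h) x - c' (g * h) x = c g (h • x) - c' g (h • x) + (c h x - c' h x)
  rw [hc, hc']
  abel

theorem cob_base (n : Cos Γ → A) {γ : SL(2, ℤ)} (hγ : γ ∈ Γ) : cob n γ (base Γ) = 0 := by
  rw [cob, smul_base_of_mem hγ, sub_self]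

/-- Subtracting a coboundary does not change the attached homomorphism. -/
theorem homOfCoc_sub_cob {c : SL(2, ℤ) → Cos Γ → A} (hc : IsCoc Γ c) (n : Cos Γ → A) :
    homOfCoc (fun g x => c g x - cob n g x) (isCoc_sub hc (cob_isCoc n)) = homOfCoc c hc := by
  ext γ
  change c (γ : SL(2, ℤ)) (base Γ) - cob n (γ : SL(2, ℤ)) (base Γ) = c (γ : SL(2, ℤ)) (base Γ)
  rw [cob_base n γ.2, sub_zero]

theorem trace_conj (h g : SL(2, ℤ)) :
    ((h⁻¹ * g * h : SL(2, ℤ)) : Matrix (Fin 2) (Fin 2) ℤ).trace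
      = (g : Matrix (Fin 2) (Fin 2) ℤ).trace := by
  rw [mul_assoc, Matrix.SpecialLinearGroup.coe_mul, Matrix.trace_mul_comm,
    ← Matrix.SpecialLinearGroup.coe_mul, mul_inv_cancel_right]

theorem trace_T_pow (w : ℕ) : ((T ^ w : SL(2, ℤ)) : Matrix (Fin 2) (Fin 2) ℤ).trace = 2 := by
  rw [← zpow_natCast, ModularGroup.coe_T_zpow, Matrix.trace_fin_two]
  simp

/-- A stabiliser element `rep⁻¹ * z * rep` of a coset fixed by `z`. -/
theorem conj_rep_mem {z : SL(2, ℤ)} {x : Cos Γ} (hz : z • x = x) :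
    (rep Γ x)⁻¹ * z * rep Γ x ∈ Γ := by
  have h := cocEl_mem (Γ := Γ) z x
  rwa [hz] at h

/-- A parabolic homomorphism kills the conjugates of the powers of `T`. -/
theorem ext_conj_T_pow (φ : Additive Γ →+ A) (hφ : ModularCurve.Period.IsParabolicHom Γ φ)
    (x : Cos Γ) (w : ℕ) (hx : T ^ w • x = x) :
    ext Γ φ ((rep Γ x)⁻¹ * T ^ w * rep Γ x) = 0 := by
  rw [ext_of_mem φ (conj_rep_mem hx)]
  refine hφ ⟨_, conj_rep_mem hx⟩ ?_
  change ((((rep Γ x)⁻¹ * T ^ w * rep Γ x : SL(2, ℤ)) : Matrix (Fin 2) (Fin 2) ℤ)).trace ^ 2 = 4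
  rw [trace_conj, trace_T_pow]
  norm_num

/-- A homomorphism to a torsion-free group kills the elements of finite order. -/
theorem ext_eq_zero_of_pow_eq_one [IsAddTorsionFree A] (ψ : Additive Γ →+ A) {g : SL(2, ℤ)}
    (hg : g ∈ Γ) {k : ℕ} (hk : k ≠ 0) (h : g ^ k = 1) : ext Γ ψ g = 0 := by
  rw [ext_of_mem ψ hg]
  have h1 : k • ψ (Additive.ofMul ⟨g, hg⟩) = 0 := by
    rw [← map_nsmul, ← ofMul_pow]
    have h2 : (⟨g, hg⟩ : Γ) ^ k = 1 := Subtype.ext (by simpa using h)
    rw [h2, ofMul_one, map_zero]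
  exact (nsmul_eq_zero_iff_right hk).mp h1

theorem conj_inv_pow (h z : SL(2, ℤ)) (k : ℕ) : (h⁻¹ * z * h) ^ k = h⁻¹ * z ^ k * h := by
  induction k with
  | zero => simp
  | succ k ih =>
    rw [pow_succ, ih, pow_succ]
    group

theorem S_pow_four : (S ^ 4 : SL(2, ℤ)) = 1 := by decide

theorem U_pow_six : (U ^ 6 : SL(2, ℤ)) = 1 := by decide

/-- A homomorphism to a torsion-free group kills the stabiliser elements coming from a
finite-order `z`. -/
theorem ext_conj_eq_zero_of_pow [IsAddTorsionFree A] (ψ : Additive Γ →+ A) {z : SL(2, ℤ)}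
    {k : ℕ} (hk : k ≠ 0) (hzk : z ^ k = 1) (x : Cos Γ) (w : ℕ) (hx : z ^ w • x = x) :
    ext Γ ψ ((rep Γ x)⁻¹ * z ^ w * rep Γ x) = 0 := by
  refine ext_eq_zero_of_pow_eq_one ψ (conj_rep_mem hx) hk ?_
  rw [conj_inv_pow, ← pow_mul, mul_comm w k, pow_mul, hzk, one_pow, mul_one, inv_mul_cancel]

/-! ### The `T`-normal form -/

/-- **T-normal form.**  A parabolic homomorphism `φ` is attached to a cocycle vanishing at `T`. -/
theorem exists_T_normal [Finite (Cos Γ)] (φ : Additive Γ →+ A)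
    (hφ : ModularCurve.Period.IsParabolicHom Γ φ) :
    ∃ (c : SL(2, ℤ) → Cos Γ → A) (hc : IsCoc Γ c), homOfCoc c hc = φ ∧ ∀ x, c T x = 0 := by
  obtain ⟨n, hn⟩ := exists_potential T (cocOf Γ φ T) (fun x w hx => by
    rw [sum_cocOf_orbit φ T w x hx]
    exact ext_conj_T_pow φ hφ x w hx)
  refine ⟨fun g x => cocOf Γ φ g x - cob n g x, isCoc_sub (cocOf_isCoc φ) (cob_isCoc n), ?_, ?_⟩
  · rw [homOfCoc_sub_cob (cocOf_isCoc _), homOfCoc_cocOf]
  · intro x
    change cocOf Γ φ T x - (n (T • x) - n x) = 0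
    rw [hn x, sub_self]

/-- For a cocycle vanishing at `T`, the value at `U = S * T` is the value at `S`, shifted. -/
theorem apply_U_of_T {c : SL(2, ℤ) → Cos Γ → A} (hc : IsCoc Γ c) (hT : ∀ x, c T x = 0)
    (x : Cos Γ) : c U x = c S (T • x) := by
  have h := hc S T x
  rw [hT x, add_zero] at h
  exact h

/-- For a cocycle vanishing at `-1`, the value at `S` is anti-invariant under `S`. -/
theorem apply_S_add {c : SL(2, ℤ) → Cos Γ → A} (hc : IsCoc Γ c) (h1 : ∀ x, c (-1) x = 0)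
    (x : Cos Γ) : c S x + c S (S • x) = 0 := by
  have h := hc S S x
  rw [Fermat.Agent.S16.H97.S_mul_S, h1 x] at h
  rw [add_comm]
  exact h.symm

/-- **T-normal form**, with all the consequences used for the coset formula of the pairing:
`P := c S` satisfies `P + P ∘ S = 0` and `c U = P ∘ T`. -/
theorem exists_T_normal' (hneg : (-1 : SL(2, ℤ)) ∈ Γ) [Finite (Cos Γ)] (φ : Additive Γ →+ A)
    (hφ : ModularCurve.Period.IsParabolicHom Γ φ) :
    ∃ (c : SL(2, ℤ) → Cos Γ → A) (hc : IsCoc Γ c), homOfCoc c hc = φ ∧ (∀ x, c T x = 0) ∧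
      (∀ x, c (-1) x = 0) ∧ (∀ x, c U x = c S (T • x)) ∧ (∀ x, c S x + c S (S • x) = 0) := by
  obtain ⟨n, hn⟩ := exists_potential T (cocOf Γ φ T) (fun x w hx => by
    rw [sum_cocOf_orbit φ T w x hx]
    exact ext_conj_T_pow φ hφ x w hx)
  have hc : IsCoc Γ (fun g x => cocOf Γ φ g x - cob n g x) :=
    isCoc_sub (cocOf_isCoc φ) (cob_isCoc n)
  have hT : ∀ x, cocOf Γ φ T x - cob n T x = 0 := by
    intro x
    change cocOf Γ φ T x - (n (T • x) - n x) = 0
    rw [hn x, sub_self]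
  have h1 : ∀ x, cocOf Γ φ (-1) x - cob n (-1) x = 0 := by
    intro x
    have hpar : φ (Additive.ofMul ⟨-1, hneg⟩) = 0 := by
      refine hφ ⟨-1, hneg⟩ ?_
      change (((-1 : SL(2, ℤ)) : Matrix (Fin 2) (Fin 2) ℤ)).trace ^ 2 = 4
      rw [Matrix.SpecialLinearGroup.coe_neg, Matrix.SpecialLinearGroup.coe_one,
        Matrix.trace_neg, Matrix.trace_one]
      norm_num
    rw [cocOf_neg_one hneg, hpar, cob, neg_one_smul_cos hneg, sub_self, sub_zero]
  refine ⟨_, hc, ?_, hT, h1, apply_U_of_T hc hT, apply_S_add hc h1⟩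
  rw [homOfCoc_sub_cob (cocOf_isCoc _), homOfCoc_cocOf]

/-! ### The `U`-potential -/

/-- **U-potential.**  A homomorphism `ψ : Γ → A` to a torsion-free group is attached to a
cocycle `c` with `c U = 0` and `c S = Q ∘ S - Q`. -/
theorem exists_U_potential [Finite (Cos Γ)] [IsAddTorsionFree A] (ψ : Additive Γ →+ A) :
    ∃ (c : SL(2, ℤ) → Cos Γ → A) (hc : IsCoc Γ c) (Q : Cos Γ → A), homOfCoc c hc = ψ ∧
      (∀ x, c U x = 0) ∧ ∀ x, c S x = Q (S • x) - Q x := by
  obtain ⟨m, hm⟩ := exists_potential U (cocOf Γ ψ U) (fun x w hx => by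
    rw [sum_cocOf_orbit ψ U w x hx]
    exact ext_conj_eq_zero_of_pow ψ (by norm_num : (6 : ℕ) ≠ 0) U_pow_six x w hx)
  have hc : IsCoc Γ (fun g x => cocOf Γ ψ g x - cob m g x) :=
    isCoc_sub (cocOf_isCoc ψ) (cob_isCoc m)
  have hU : ∀ x, cocOf Γ ψ U x - cob m U x = 0 := by
    intro x
    change cocOf Γ ψ U x - (m (U • x) - m x) = 0
    rw [hm x, sub_self]
  obtain ⟨Q, hQ⟩ := exists_potential S (fun x => cocOf Γ ψ S x - cob m S x) (fun x w hx => by
    have h := (hc.pow S w x).symm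
    change ∑ j ∈ Finset.range w, (cocOf Γ ψ S (S ^ j • x) - cob m S (S ^ j • x)) = 0
    rw [h, cob, hx, sub_self, sub_zero, cocOf_of_smul_eq ψ _ x hx]
    exact ext_conj_eq_zero_of_pow ψ (by norm_num : (4 : ℕ) ≠ 0) S_pow_four x w hx)
  refine ⟨_, hc, Q, ?_, hU, hQ⟩
  rw [homOfCoc_sub_cob (cocOf_isCoc _), homOfCoc_cocOf]

end Coset

end Fermat.Agent.S41.H80
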